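import Fermat.Agent.S25.H491.HilbChart

/-!
# S25, block HILB, leaf H1 (helper491), part 2: the Hilbert functor, base change, chart loci

* `IsHilb g I`: the quotient `(A ⊗[k] B) ⧸ I` is finite projective of constant rank `g` over `A`.
* `quotMapEquiv`: `(A' ⊗[k] B) ⧸ I.map _ ≃ₐ[A'] A' ⊗[A] ((A ⊗[k] B) ⧸ I)`; `IsHilb.map`.
* `exists_chartLocus`: for `I` with `IsHilb g I` there are ideals `𝔞 β` of `A` with `⨆ β, 𝔞 β = ⊤`
  such that for all `φ : A →ₐ[k] A'`, `IsChart β (I.map _) ↔ (𝔞 β).map φ = ⊤`.
-/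

set_option autoImplicit false

open scoped TensorProduct

namespace Fermat.Agent.S25.H491

universe u v w w'

section BaseChange

variable {k : Type u} [CommRing k] {B : Type v} [CommRing B] [Algebra k B]
variable {A : Type w} [CommRing A] [Algebra k A] {A' : Type w'} [CommRing A'] [Algebra k A']
variable [Algebra A A'] [IsScalarTower k A A']

theorem cancel_comp_bc (x : A ⊗[k] B) :
    (Algebra.TensorProduct.cancelBaseChange k A A' A' B).symm
        (bc B (IsScalarTower.toAlgHom k A A') x) =
      Algebra.TensorProduct.includeRight (R := A) (A := A') (B := A ⊗[k] B) x := by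
  induction x using TensorProduct.induction_on with
  | zero => simp
  | tmul a b =>
    simp only [Algebra.TensorProduct.map_tmul, IsScalarTower.coe_toAlgHom', AlgHom.coe_id, id_eq,
      Algebra.TensorProduct.cancelBaseChange_symm_tmul, Algebra.TensorProduct.includeRight_apply]
    have h : a ⊗ₜ[k] b = a • ((1 : A) ⊗ₜ[k] b) := by
      rw [TensorProduct.smul_tmul', smul_eq_mul, mul_one]
    rw [h, TensorProduct.tmul_smul, TensorProduct.smul_tmul', Algebra.smul_def, mul_one]
  | add x y hx hy => simp only [map_add, hx, hy]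

theorem map_includeRight_eq (I : Ideal (A ⊗[k] B)) :
    I.map (Algebra.TensorProduct.includeRight (R := A) (A := A') (B := A ⊗[k] B)) =
      (I.map (bc B (IsScalarTower.toAlgHom k A A'))).map
        ((Algebra.TensorProduct.cancelBaseChange k A A' A' B).symm :
          A' ⊗[k] B →+* A' ⊗[A] (A ⊗[k] B)) := by
  have h1 : I.map (bc B (IsScalarTower.toAlgHom k A A')) =
      I.map ((bc B (IsScalarTower.toAlgHom k A A') : A ⊗[k] B →ₐ[k] A' ⊗[k] B) :
        A ⊗[k] B →+* A' ⊗[k] B) := rfl
  have h2 : ((Algebra.TensorProduct.cancelBaseChange k A A' A' B).symm :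
          A' ⊗[k] B →+* A' ⊗[A] (A ⊗[k] B)).comp
        ((bc B (IsScalarTower.toAlgHom k A A') : A ⊗[k] B →ₐ[k] A' ⊗[k] B) :
          A ⊗[k] B →+* A' ⊗[k] B) =
      ((Algebra.TensorProduct.includeRight (R := A) (A := A') (B := A ⊗[k] B) :
          A ⊗[k] B →ₐ[A] A' ⊗[A] (A ⊗[k] B)) : A ⊗[k] B →+* A' ⊗[A] (A ⊗[k] B)) :=
    RingHom.ext cancel_comp_bc
  rw [h1, Ideal.map_map, h2]
  rfl

/-- Base change of the quotient: `(A' ⊗ B) ⧸ I·(A' ⊗ B) ≃ A' ⊗[A] ((A ⊗ B) ⧸ I)`. -/
noncomputable def quotMapEquiv (I : Ideal (A ⊗[k] B)) :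
    ((A' ⊗[k] B) ⧸ I.map (bc B (IsScalarTower.toAlgHom k A A'))) ≃ₐ[A']
      A' ⊗[A] ((A ⊗[k] B) ⧸ I) :=
  (Ideal.quotientEquivAlg _ _ (Algebra.TensorProduct.cancelBaseChange k A A' A' B).symm
    (map_includeRight_eq I)).trans
    (Algebra.TensorProduct.tensorQuotientEquiv (R := A) A' (A ⊗[k] B) A' I).symm

theorem quotMapEquiv_mk_tmul (I : Ideal (A ⊗[k] B)) (a' : A') (b : B) :
    quotMapEquiv I (Ideal.Quotient.mk _ (a' ⊗ₜ[k] b)) =
      a' ⊗ₜ[A] Ideal.Quotient.mk I ((1 : A) ⊗ₜ[k] b) := by
  simp [quotMapEquiv]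

theorem quotMapEquiv_mk_bc (I : Ideal (A ⊗[k] B)) (x : A ⊗[k] B) :
    quotMapEquiv I (Ideal.Quotient.mk _ (bc B (IsScalarTower.toAlgHom k A A') x)) =
      (1 : A') ⊗ₜ[A] Ideal.Quotient.mk I x := by
  simp only [quotMapEquiv, AlgEquiv.trans_apply, Ideal.quotientEquivAlg_mk]
  rw [cancel_comp_bc]
  simp

end BaseChange

/-! ### The Hilbert functor -/

section Hilb

variable {k : Type u} [CommRing k] {B : Type v} [CommRing B] [Algebra k B]
variable {A : Type w} [CommRing A] [Algebra k A] {A' : Type w'} [CommRing A'] [Algebra k A']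

/-- `I` is an `A`-point of the Hilbert functor `Hilb^g` of `B`: the quotient `(A ⊗[k] B) ⧸ I` is a
finite projective `A`-module of constant rank `g`. -/
structure IsHilb (g : ℕ) (I : Ideal (A ⊗[k] B)) : Prop where
  finite : Module.Finite A ((A ⊗[k] B) ⧸ I)
  projective : Module.Projective A ((A ⊗[k] B) ⧸ I)
  rank : ∀ p : PrimeSpectrum A, Module.rankAtStalk (R := A) ((A ⊗[k] B) ⧸ I) p = g

/-- Chart ideals are points of the Hilbert functor. -/
theorem IsChart.isHilb {g : ℕ} {β : Fin g → B} {I : Ideal (A ⊗[k] B)} (hI : IsChart β I) :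
    IsHilb g I := by
  obtain ⟨e, -⟩ := hI
  have : Module.Finite A ((A ⊗[k] B) ⧸ I) := Module.Finite.equiv e.symm
  have : Module.Free A ((A ⊗[k] B) ⧸ I) := Module.Free.of_equiv e.symm
  refine ⟨inferInstance, inferInstance, fun p => ?_⟩
  have : Nontrivial A := p.nontrivial
  rw [Module.rankAtStalk_eq_of_equiv e, Module.rankAtStalk_eq_finrank_of_free]
  simp

theorem IsHilb.map_of_algebra [Algebra A A'] [IsScalarTower k A A'] {g : ℕ}
    {I : Ideal (A ⊗[k] B)} (h : IsHilb g I) :
    IsHilb g (I.map (bc B (IsScalarTower.toAlgHom k A A'))) := by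
  have := h.finite
  have := h.projective
  have e := (quotMapEquiv (A' := A') I).toLinearEquiv
  refine ⟨Module.Finite.equiv e.symm, Module.Projective.of_equiv e.symm, fun p => ?_⟩
  rw [Module.rankAtStalk_eq_of_equiv e, Module.rankAtStalk_baseChange, h.rank]

/-- **Base change of the Hilbert functor**: `I ↦ I · (A' ⊗[k] B)`. -/
theorem IsHilb.map {g : ℕ} {I : Ideal (A ⊗[k] B)} (h : IsHilb g I) (φ : A →ₐ[k] A') :
    IsHilb g (I.map (bc B φ)) := by
  let _ : Algebra A A' := φ.toRingHom.toAlgebra
  have : IsScalarTower k A A' := IsScalarTower.of_algebraMap_eq' φ.comp_algebraMap.symm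
  have hφ : IsScalarTower.toAlgHom k A A' = φ := by ext; rfl
  rw [← hφ]
  exact h.map_of_algebra

end Hilb

/-! ### Two lemmas of linear algebra -/

section LinAlg

variable {A : Type w} [CommRing A]

/-- A split injection `A^g → Q` into a finite projective module of constant rank `g` is
bijective. -/
theorem bijective_of_leftInverse_of_rank {Q : Type v} [AddCommGroup Q] [Module A Q]
    [Module.Finite A Q] [Module.Projective A Q] {g : ℕ}
    (hrank : ∀ p : PrimeSpectrum A, Module.rankAtStalk (R := A) Q p = g)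
    (u : (Fin g → A) →ₗ[A] Q) (ν : Q →ₗ[A] (Fin g → A)) (h : ν ∘ₗ u = LinearMap.id) :
    Function.Bijective u := by
  have hνu : ∀ c, ν (u c) = c := fun c => LinearMap.congr_fun h c
  -- the complement `K = ker ν`
  let s : Q →ₗ[A] LinearMap.ker ν :=
    (LinearMap.id - u ∘ₗ ν).codRestrict (LinearMap.ker ν) (fun q => by
      rw [LinearMap.mem_ker, LinearMap.sub_apply, map_sub, LinearMap.id_apply,
        LinearMap.comp_apply, hνu, sub_self])
  have hs : ∀ x : LinearMap.ker ν, s x = x := fun x => by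
    apply Subtype.ext
    have hx : ν (x : Q) = 0 := x.2
    simp [s, hx]
  have hsurj : Function.Surjective s := fun x => ⟨x, hs x⟩
  have : Module.Finite A (LinearMap.ker ν) := Module.Finite.of_surjective s hsurj
  have : Module.Projective A (LinearMap.ker ν) :=
    Module.Projective.of_split (LinearMap.ker ν).subtype s (by ext x; simp [hs])
  let e : Q ≃ₗ[A] (Fin g → A) × LinearMap.ker ν :=
    LinearEquiv.ofLinearMap (ν.prod s) (u.coprod (LinearMap.ker ν).subtype)
      (by
        apply LinearMap.ext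
        rintro ⟨c, x⟩
        have hx : ν (x : Q) = 0 := x.2
        apply Prod.ext
        · simp [hνu, hx]
        · apply Subtype.ext
          simp [s, hνu, hx])
      (by
        apply LinearMap.ext
        intro q
        simp [s])
  have hK : Module.rankAtStalk (R := A) (LinearMap.ker ν) = 0 := by
    ext p
    have h1 := congrFun (Module.rankAtStalk_eq_of_equiv e) p
    rw [hrank p, Module.rankAtStalk_prod] at h1
    have : Nontrivial A := p.nontrivial
    rw [Pi.add_apply, Module.rankAtStalk_eq_finrank_of_free] at h1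
    simp only [Module.finrank_fin_fun, Pi.natCast_def] at h1
    simpa using h1
  have hsub : Subsingleton (LinearMap.ker ν) := Module.rankAtStalk_eq_zero_iff_subsingleton.mp hK
  refine ⟨Function.LeftInverse.injective hνu, fun q => ⟨ν q, ?_⟩⟩
  have := congrArg Subtype.val (Subsingleton.elim (s q) 0)
  simp only [s, LinearMap.codRestrict_apply, LinearMap.sub_apply, LinearMap.id_apply,
    LinearMap.comp_apply, ZeroMemClass.coe_zero] at this
  exact (sub_eq_zero.mp this).symm

/-- A weak form of the Cauchy–Binet formula: `det (M * U)` is a linear combination of the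
`g × g` determinants built from the rows of `U`. -/
theorem det_mul_eq_sum {g n : ℕ} (M : Matrix (Fin g) (Fin n) A) (U : Matrix (Fin n) (Fin g) A) :
    (M * U).det =
      ∑ σ : Fin g → Fin n, (∏ s, M s (σ s)) * (Matrix.of fun s t => U (σ s) t).det := by
  have h : M * U = Matrix.of (fun s => ∑ j, M s j • U j) := by
    ext s t
    simp [Matrix.mul_apply, Finset.sum_apply]
  rw [h]
  have h2 := (Matrix.detRowAlternating (R := A) (n := Fin g)).toMultilinearMap.map_sum
    (fun s j => M s j • U j)
  change Matrix.detRowAlternating (fun s => ∑ j, M s j • U j) = _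
  rw [show (Matrix.detRowAlternating (R := A) (n := Fin g)) (fun s => ∑ j, M s j • U j) =
    (Matrix.detRowAlternating (R := A) (n := Fin g)).toMultilinearMap
      (fun s => ∑ j, M s j • U j) from rfl, h2]
  refine Finset.sum_congr rfl fun σ _ => ?_
  rw [MultilinearMap.map_smul_univ]
  rfl

end LinAlg

/-! ### The locus of a chart -/

section Locus

variable {k : Type u} [CommRing k] {B : Type v} [CommRing B] [Algebra k B]
variable {A : Type w} [CommRing A] [Algebra k A] {A' : Type w'} [CommRing A'] [Algebra k A']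
variable {g : ℕ}

/-- The ideal of `A` whose open complement is the locus where `I` lies in the chart of `β`:
it is generated by the determinants `det (l s [1 ⊗ β t])`, `l` a `g`-tuple of linear forms on the
quotient. -/
noncomputable def chartIdeal (β : Fin g → B) (I : Ideal (A ⊗[k] B)) : Ideal A :=
  Ideal.span (Set.range fun l : Fin g → Module.Dual A ((A ⊗[k] B) ⧸ I) =>
    Matrix.det (Matrix.of fun s t => l s (Ideal.Quotient.mk I (1 ⊗ₜ[k] β t))))

section Algebra

variable [Algebra A A'] [IsScalarTower k A A']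

/-- Base change of a linear form on the quotient. -/
noncomputable def dualBC (I : Ideal (A ⊗[k] B)) (l : Module.Dual A ((A ⊗[k] B) ⧸ I)) :
    Module.Dual A' ((A' ⊗[k] B) ⧸ I.map (bc B (IsScalarTower.toAlgHom k A A'))) :=
  (Module.Dual.baseChange A' l) ∘ₗ (quotMapEquiv (A' := A') I).toLinearEquiv.toLinearMap

theorem dualBC_mk_bc (I : Ideal (A ⊗[k] B)) (l : Module.Dual A ((A ⊗[k] B) ⧸ I))
    (x : A ⊗[k] B) :
    dualBC (A' := A') I l (Ideal.Quotient.mk _ (bc B (IsScalarTower.toAlgHom k A A') x)) =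
      algebraMap A A' (l (Ideal.Quotient.mk I x)) := by
  simp only [dualBC, LinearMap.comp_apply, LinearEquiv.coe_coe, AlgEquiv.toLinearEquiv_apply]
  rw [quotMapEquiv_mk_bc]
  simp [Algebra.smul_def]

theorem bc_one_tmul (b : B) :
    bc B (IsScalarTower.toAlgHom k A A') ((1 : A) ⊗ₜ[k] b) = (1 : A') ⊗ₜ[k] b := by
  simp

theorem dualBC_mk_one_tmul (I : Ideal (A ⊗[k] B)) (l : Module.Dual A ((A ⊗[k] B) ⧸ I))
    (b : B) :
    dualBC (A' := A') I l (Ideal.Quotient.mk _ ((1 : A') ⊗ₜ[k] b)) =
      algebraMap A A' (l (Ideal.Quotient.mk I ((1 : A) ⊗ₜ[k] b))) := by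
  rw [← bc_one_tmul (A := A), dualBC_mk_bc]

/-- For every element `x` of the extension of `chartIdeal β I` there is a linear map
`ν : Q' → A'^g` with `ν [1 ⊗ β t] = x • e_t`. -/
theorem exists_retraction_of_mem (β : Fin g → B) (I : Ideal (A ⊗[k] B)) (x : A')
    (hx : x ∈ (chartIdeal β I).map (algebraMap A A')) :
    ∃ ν : ((A' ⊗[k] B) ⧸ I.map (bc B (IsScalarTower.toAlgHom k A A'))) →ₗ[A'] (Fin g → A'),
      ∀ t, ν (Ideal.Quotient.mk _ ((1 : A') ⊗ₜ[k] β t)) = x • Pi.single t 1 := by
  rw [chartIdeal, Ideal.map_span] at hx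
  induction hx using Submodule.span_induction with
  | mem x hx =>
    obtain ⟨_, ⟨l, rfl⟩, rfl⟩ := hx
    set D : Matrix (Fin g) (Fin g) A :=
      Matrix.of fun s t => l s (Ideal.Quotient.mk I (1 ⊗ₜ[k] β t)) with hD
    set D' : Matrix (Fin g) (Fin g) A' := (algebraMap A A').mapMatrix D with hD'
    refine ⟨(Matrix.toLin' D'.adjugate) ∘ₗ (LinearMap.pi fun s => dualBC (A' := A') I (l s)),
      fun t => ?_⟩
    have h1 : (LinearMap.pi fun s => dualBC (A' := A') I (l s))
        (Ideal.Quotient.mk _ ((1 : A') ⊗ₜ[k] β t)) = D'.mulVec (Pi.single t 1) := by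
      ext s
      rw [LinearMap.pi_apply, dualBC_mk_one_tmul, Matrix.mulVec_single_one]
      rfl
    rw [LinearMap.comp_apply, h1, Matrix.toLin'_apply, Matrix.mulVec_mulVec,
      Matrix.adjugate_mul, Matrix.smul_mulVec, Matrix.one_mulVec, hD', ← RingHom.map_det]
  | zero => exact ⟨0, fun t => by simp⟩
  | add x y _ _ hx hy =>
    obtain ⟨ν, hν⟩ := hx
    obtain ⟨ν', hν'⟩ := hy
    exact ⟨ν + ν', fun t => by rw [LinearMap.add_apply, hν, hν', add_smul]⟩
  | smul a x _ hx =>
    obtain ⟨ν, hν⟩ := hx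
    exact ⟨a • ν, fun t => by rw [LinearMap.smul_apply, hν, smul_smul, smul_eq_mul]⟩

/-- **Chart locus, part 1**: if `chartIdeal β I` generates the unit ideal of `A'`, then the
base change of `I` to `A'` lies in the chart of `β`. -/
theorem isChart_of_map_chartIdeal_eq_top (β : Fin g → B) {I : Ideal (A ⊗[k] B)}
    (h : IsHilb g I) (htop : (chartIdeal β I).map (algebraMap A A') = ⊤) :
    IsChart β (I.map (bc B (IsScalarTower.toAlgHom k A A'))) := by
  obtain ⟨ν, hν⟩ := exists_retraction_of_mem (A' := A') β I 1 (by rw [htop]; trivial)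
  have h' := h.map_of_algebra (A' := A')
  have := h'.finite
  have := h'.projective
  set q' : Fin g → (A' ⊗[k] B) ⧸ I.map (bc B (IsScalarTower.toAlgHom k A A')) :=
    fun t => Ideal.Quotient.mk _ ((1 : A') ⊗ₜ[k] β t) with hq'
  let u : (Fin g → A') →ₗ[A'] (A' ⊗[k] B) ⧸ I.map (bc B (IsScalarTower.toAlgHom k A A')) :=
    Fintype.linearCombination A' q'
  have hu : ∀ t, u (Pi.single t 1) = q' t := fun t => by
    simp [u, Fintype.linearCombination_apply_single]
  have hνu : ν ∘ₗ u = LinearMap.id := by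
    apply LinearMap.pi_ext'
    intro t
    apply LinearMap.ext_ring
    rw [LinearMap.comp_apply, LinearMap.comp_apply, LinearMap.single_apply, hu, LinearMap.id_comp,
      LinearMap.single_apply]
    simpa using hν t
  have hb := bijective_of_leftInverse_of_rank h'.rank u ν hνu
  refine ⟨(LinearEquiv.ofBijective u hb).symm, fun t => ?_⟩
  rw [LinearEquiv.symm_apply_eq, LinearEquiv.ofBijective_apply, hu]

/-- **Chart locus, part 2**: if the base change of `I` to `A'` lies in the chart of `β`, then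
`chartIdeal β I` generates the unit ideal of `A'`. -/
theorem map_chartIdeal_eq_top_of_isChart (β : Fin g → B) {I : Ideal (A ⊗[k] B)}
    (h : IsHilb g I) (hc : IsChart β (I.map (bc B (IsScalarTower.toAlgHom k A A')))) :
    (chartIdeal β I).map (algebraMap A A') = ⊤ := by
  have := h.finite
  have := h.projective
  obtain ⟨e', he'⟩ := hc
  obtain ⟨n, r, i, -, -, hri⟩ :=
    Module.Finite.exists_comp_eq_id_of_projective A ((A ⊗[k] B) ⧸ I)
  -- lifts of the generators
  have hlift : ∀ j : Fin n, ∃ x : A ⊗[k] B, Ideal.Quotient.mk I x = r (Pi.single j 1) :=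
    fun j => Ideal.Quotient.mk_surjective _
  choose rt hrt using hlift
  -- expansion in `Q`
  have hexp : ∀ q : (A ⊗[k] B) ⧸ I, q = ∑ j, i q j • r (Pi.single j 1) := fun q => by
    have h1 : r (i q) = q := LinearMap.congr_fun hri q
    have h2 : i q = ∑ j, i q j • (Pi.single j 1 : Fin n → A) := by
      ext j'
      simp [Finset.sum_apply, Pi.single_apply]
    conv_lhs => rw [← h1, h2]
    rw [map_sum]
    refine Finset.sum_congr rfl fun j _ => ?_
    rw [map_smul]
  -- expansion in `Q'`
  have hexp' : ∀ t, Ideal.Quotient.mk (I.map (bc B (IsScalarTower.toAlgHom k A A')))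
        ((1 : A') ⊗ₜ[k] β t) =
      ∑ j, algebraMap A A' (i (Ideal.Quotient.mk I (1 ⊗ₜ[k] β t)) j) •
        Ideal.Quotient.mk (I.map (bc B (IsScalarTower.toAlgHom k A A')))
          (bc B (IsScalarTower.toAlgHom k A A') (rt j)) := fun t => by
    apply (quotMapEquiv (A' := A') I).injective
    rw [← bc_one_tmul (A := A), quotMapEquiv_mk_bc, map_sum]
    conv_lhs => rw [hexp (Ideal.Quotient.mk I (1 ⊗ₜ[k] β t))]
    rw [TensorProduct.tmul_sum]
    refine Finset.sum_congr rfl fun j _ => ?_
    rw [map_smul, quotMapEquiv_mk_bc, hrt j, TensorProduct.tmul_smul,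
      ← algebraMap_smul A' (i (Ideal.Quotient.mk I (1 ⊗ₜ[k] β t)) j)
        ((1 : A') ⊗ₜ[A] r (Pi.single j 1))]
  -- matrices
  set M' : Matrix (Fin g) (Fin n) A' := Matrix.of fun s j =>
    e' (Ideal.Quotient.mk _ (bc B (IsScalarTower.toAlgHom k A A') (rt j))) s with hM'
  set U : Matrix (Fin n) (Fin g) A :=
    Matrix.of fun j t => i (Ideal.Quotient.mk I (1 ⊗ₜ[k] β t)) j with hU
  have hMU : M' * (U.map (algebraMap A A')) = 1 := by
    ext s t
    have h3 := congrFun (congrArg e' (hexp' t)) s
    rw [he' t, map_sum, Finset.sum_apply] at h3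
    rw [Matrix.mul_apply, Matrix.one_apply, ← Pi.single_apply, h3]
    · refine Finset.sum_congr rfl fun j _ => ?_
      rw [map_smul, Pi.smul_apply, smul_eq_mul, mul_comm]
      rfl
  have hdet := det_mul_eq_sum M' (U.map (algebraMap A A'))
  rw [hMU, Matrix.det_one] at hdet
  rw [Ideal.eq_top_iff_one, hdet]
  refine Ideal.sum_mem _ fun σ _ => Ideal.mul_mem_left _ _ ?_
  have h4 : Matrix.det (Matrix.of fun s t => (U.map (algebraMap A A')) (σ s) t) =
      algebraMap A A' (Matrix.det (Matrix.of fun s t => U (σ s) t)) := by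
    rw [RingHom.map_det]
    rfl
  rw [h4]
  apply Ideal.mem_map_of_mem
  apply Ideal.subset_span
  exact ⟨fun s => (LinearMap.proj (σ s)) ∘ₗ i, rfl⟩

/-- **Chart locus** (`A'` an `A`-algebra): the base change of `I` to `A'` lies in the chart of `β`
iff `chartIdeal β I` generates the unit ideal of `A'`. -/
theorem isChart_map_iff_of_algebra (β : Fin g → B) {I : Ideal (A ⊗[k] B)} (h : IsHilb g I) :
    IsChart β (I.map (bc B (IsScalarTower.toAlgHom k A A'))) ↔
      (chartIdeal β I).map (algebraMap A A') = ⊤ :=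
  ⟨map_chartIdeal_eq_top_of_isChart β h, isChart_of_map_chartIdeal_eq_top β h⟩

end Algebra

/-- **Chart locus**: for `I` a point of `Hilb^g` over `A` and `φ : A →ₐ[k] A'`, the base change
of `I` along `φ` lies in the chart of `β` iff `chartIdeal β I` generates the unit ideal of `A'`. -/
theorem isChart_map_iff (β : Fin g → B) {I : Ideal (A ⊗[k] B)} (h : IsHilb g I)
    (φ : A →ₐ[k] A') :
    IsChart β (I.map (bc B φ)) ↔ (chartIdeal β I).map φ = ⊤ := by
  let _ : Algebra A A' := φ.toRingHom.toAlgebra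
  have : IsScalarTower k A A' := IsScalarTower.of_algebraMap_eq' φ.comp_algebraMap.symm
  have hφ : IsScalarTower.toAlgHom k A A' = φ := by ext; rfl
  have h1 := isChart_map_iff_of_algebra (A' := A') β h
  rw [hφ] at h1
  exact h1

/-- The case `A' = A`. -/
theorem isChart_iff_chartIdeal_eq_top (β : Fin g → B) {I : Ideal (A ⊗[k] B)} (h : IsHilb g I) :
    IsChart β I ↔ chartIdeal β I = ⊤ := by
  have h1 := isChart_map_iff β h (AlgHom.id k A)
  have h2 : I.map (bc B (AlgHom.id k A)) = I := by
    have : (bc B (AlgHom.id k A) : A ⊗[k] B →ₐ[k] A ⊗[k] B) = AlgHom.id k _ :=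
      Algebra.TensorProduct.map_id
    rw [this]
    exact Ideal.map_id I
  have h3 : (chartIdeal β I).map (AlgHom.id k A) = chartIdeal β I := Ideal.map_id _
  rw [h2, h3] at h1
  exact h1

/-- From a spanning family of a vector space of dimension `g` one can extract a basis indexed by
`Fin g`. -/
theorem exists_basis_fin_of_span {K : Type w} {V : Type v} {ι : Type u} [Field K]
    [AddCommGroup V] [Module K V] [Module.Finite K V] (v : ι → V)
    (hv : Submodule.span K (Set.range v) = ⊤) {g : ℕ} (hg : Module.finrank K V = g) :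
    ∃ (a : Fin g → ι) (b : Module.Basis (Fin g) K V), ∀ t, b t = v (a t) := by
  obtain ⟨κ, a, -, hsp, hli⟩ := exists_linearIndependent' K v
  let b₀ : Module.Basis κ K V := Module.Basis.mk hli (by rw [hsp, hv])
  have : Finite κ := Module.Finite.finite_basis b₀
  let _ : Fintype κ := Fintype.ofFinite κ
  have hcard : Fintype.card κ = g := by rw [← Module.finrank_eq_card_basis b₀, hg]
  let e : κ ≃ Fin g := Fintype.equivFinOfCardEq hcard
  refine ⟨a ∘ e.symm, b₀.reindex e, fun t => ?_⟩
  simp [b₀]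

/-- **Covering**: the chart loci cover `Spec A`. -/
theorem iSup_chartIdeal_eq_top {I : Ideal (A ⊗[k] B)} (h : IsHilb g I) :
    (⨆ β : Fin g → B, chartIdeal β I) = ⊤ := by
  by_contra hne
  obtain ⟨m, hm, hle⟩ := Ideal.exists_le_maximal _ hne
  let _ : Field (A ⧸ m) := Ideal.Quotient.field m
  have h' := h.map_of_algebra (A' := A ⧸ m)
  have := h'.finite
  have := h'.projective
  set J := I.map (bc B (IsScalarTower.toAlgHom k A (A ⧸ m))) with hJ
  have hrank : Module.finrank (A ⧸ m) (((A ⧸ m) ⊗[k] B) ⧸ J) = g := by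
    have h1 := h'.rank ⟨⊥, Ideal.isPrime_bot⟩
    rw [Module.rankAtStalk_eq_finrank_of_free] at h1
    exact h1
  -- the classes of `1 ⊗ b` span
  have hspan : Submodule.span (A ⧸ m)
      (Set.range fun b : B => Ideal.Quotient.mk J ((1 : A ⧸ m) ⊗ₜ[k] b)) = ⊤ := by
    rw [eq_top_iff]
    rintro q -
    obtain ⟨y, rfl⟩ := Ideal.Quotient.mk_surjective q
    induction y using TensorProduct.induction_on with
    | zero => rw [map_zero]; exact Submodule.zero_mem _
    | tmul c b =>
      have h1 : Ideal.Quotient.mk J (c ⊗ₜ[k] b) =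
          c • Ideal.Quotient.mk J ((1 : A ⧸ m) ⊗ₜ[k] b) := by
        have : c ⊗ₜ[k] b = c • ((1 : A ⧸ m) ⊗ₜ[k] b) := by
          rw [TensorProduct.smul_tmul', smul_eq_mul, mul_one]
        rw [this]
        rfl
      rw [h1]
      exact Submodule.smul_mem _ _ (Submodule.subset_span ⟨b, rfl⟩)
    | add x y hx hy => rw [map_add]; exact Submodule.add_mem _ hx hy
  obtain ⟨β, b, hb⟩ := exists_basis_fin_of_span _ hspan hrank
  have hchart : IsChart β J := ⟨b.equivFun, fun t => by
    rw [← hb t]
    ext s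
    simp [Pi.single_apply, eq_comm]⟩
  have htop := map_chartIdeal_eq_top_of_isChart (A' := A ⧸ m) β h hchart
  have hle' : chartIdeal β I ≤ m := le_trans (le_iSup (fun β => chartIdeal β I) β) hle
  have hbot : (chartIdeal β I).map (algebraMap A (A ⧸ m)) = ⊥ := by
    rw [eq_bot_iff]
    calc (chartIdeal β I).map (algebraMap A (A ⧸ m)) ≤ m.map (algebraMap A (A ⧸ m)) :=
          Ideal.map_mono hle'
      _ = ⊥ := Ideal.map_quotient_self m
  rw [hbot] at htop
  exact bot_ne_top htop

/-- **Covering, local case**: over a local ring every point of `Hilb^g` lies in some chart. -/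
theorem exists_isChart_of_isLocalRing [IsLocalRing A] {I : Ideal (A ⊗[k] B)} (h : IsHilb g I) :
    ∃ β : Fin g → B, IsChart β I := by
  by_contra hno
  push Not at hno
  have hle : (⨆ β : Fin g → B, chartIdeal β I) ≤ IsLocalRing.maximalIdeal A :=
    iSup_le fun β => IsLocalRing.le_maximalIdeal
      (fun htop => hno β ((isChart_iff_chartIdeal_eq_top β h).mpr htop))
  rw [iSup_chartIdeal_eq_top h, top_le_iff] at hle
  exact Ideal.IsPrime.ne_top inferInstance hle

/-- **H1, chart loci** (the shape of `ChartFamily.locus`): for a point `I` of `Hilb^g` over `A`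
there are ideals `𝔞 β` of `A` covering `Spec A` such that, for every base change `φ : A → A'`,
the base-changed ideal lies in the chart of `β` iff `𝔞 β` generates the unit ideal of `A'`. -/
theorem exists_chartLocus {I : Ideal (A ⊗[k] B)} (h : IsHilb g I) :
    ∃ 𝔞 : (Fin g → B) → Ideal A, (⨆ β, 𝔞 β) = ⊤ ∧
      ∀ (β : Fin g → B) (A' : Type w') [CommRing A'] [Algebra k A'] (φ : A →ₐ[k] A'),
        IsChart β (I.map (bc B φ)) ↔ (𝔞 β).map φ = ⊤ :=
  ⟨fun β => chartIdeal β I, iSup_chartIdeal_eq_top h, fun β _ _ _ φ => isChart_map_iff β h φ⟩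

end Locus

/-! ### Other shapes of the chart condition, and the composite equivalence -/

section Shapes

variable {k : Type u} [CommRing k] {B : Type v} [CommRing B] [Algebra k B]
variable {A : Type w} [CommRing A] [Algebra k A] {A' : Type w'} [CommRing A'] [Algebra k A']
variable {g : ℕ} {β : Fin g → B}

/-- The chart condition in the shape "the map `A^g → (A ⊗ B) ⧸ I`, `c ↦ [∑ c i ⊗ β i]`, is
bijective". -/
theorem isChart_iff_bijective {I : Ideal (A ⊗[k] B)} :
    IsChart β I ↔
      Function.Bijective (fun c : Fin g → A => Ideal.Quotient.mk I (∑ i, c i ⊗ₜ[k] β i)) := by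
  have hfun : ∀ c : Fin g → A, Ideal.Quotient.mk I (∑ i, c i ⊗ₜ[k] β i) =
      Fintype.linearCombination A (fun i => Ideal.Quotient.mk I ((1 : A) ⊗ₜ[k] β i)) c := by
    intro c
    rw [Fintype.linearCombination_apply, map_sum]
    refine Finset.sum_congr rfl fun i _ => ?_
    have : c i ⊗ₜ[k] β i = c i • ((1 : A) ⊗ₜ[k] β i) := by
      rw [TensorProduct.smul_tmul', smul_eq_mul, mul_one]
    rw [this]
    rfl
  have hfun' : (fun c : Fin g → A => Ideal.Quotient.mk I (∑ i, c i ⊗ₜ[k] β i)) =
      ⇑(Fintype.linearCombination A (fun i => Ideal.Quotient.mk I ((1 : A) ⊗ₜ[k] β i))) :=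
    funext hfun
  rw [hfun']
  constructor
  · rintro ⟨e, he⟩
    have h1 : (Fintype.linearCombination A
        (fun i => Ideal.Quotient.mk I ((1 : A) ⊗ₜ[k] β i))) = e.symm.toLinearMap := by
      apply LinearMap.pi_ext'
      intro t
      apply LinearMap.ext_ring
      rw [LinearMap.comp_apply, LinearMap.comp_apply, LinearMap.single_apply,
        Fintype.linearCombination_apply_single, one_smul, LinearEquiv.coe_coe, ← he t,
        e.symm_apply_apply]
    rw [h1]
    exact e.symm.bijective
  · intro hb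
    refine ⟨(LinearEquiv.ofBijective _ hb).symm, fun t => ?_⟩
    rw [LinearEquiv.symm_apply_eq, LinearEquiv.ofBijective_apply,
      Fintype.linearCombination_apply_single, one_smul]

/-- **H1**: the chart of `β` in the Hilbert functor is represented by `Rβ`. -/
noncomputable def hilbChartEquiv (β : Fin g → B) (A : Type w) [CommRing A] [Algebra k A] :
    (Rβ k β →ₐ[k] A) ≃ {I : Ideal (A ⊗[k] B) // IsChart β I} :=
  (repEquiv A).trans (chartEquiv β A).symm

/-- **H1**: naturality of `hilbChartEquiv`: composition with `φ` is extension of ideals. -/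
theorem hilbChartEquiv_comp (φ : A →ₐ[k] A') (ψ : Rβ k β →ₐ[k] A) :
    (hilbChartEquiv β A' (φ.comp ψ)).1 = (hilbChartEquiv β A ψ).1.map (bc B φ) := by
  change idealOf (repEquiv A' (φ.comp ψ)).2 = (idealOf (repEquiv A ψ).2).map (bc B φ)
  rw [← idealOf_map]
  rfl

/-- The universal chart ideal over `Rβ`. -/
noncomputable def univIdeal (β : Fin g → B) : Ideal (Rβ k β ⊗[k] B) :=
  (hilbChartEquiv β (Rβ k β) (AlgHom.id k _)).1

theorem isChart_univIdeal (β : Fin g → B) : IsChart β (univIdeal (k := k) β) :=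
  (hilbChartEquiv β (Rβ k β) (AlgHom.id k _)).2

/-- Every chart ideal is the pull-back of the universal one along a unique `Rβ →ₐ[k] A`. -/
theorem hilbChartEquiv_eq_map (ψ : Rβ k β →ₐ[k] A) :
    (hilbChartEquiv β A ψ).1 = (univIdeal (k := k) β).map (bc B ψ) := by
  rw [univIdeal, ← hilbChartEquiv_comp, AlgHom.comp_id]

theorem existsUnique_algHom_of_isChart {I : Ideal (A ⊗[k] B)} (hI : IsChart β I) :
    ∃! ψ : Rβ k β →ₐ[k] A, (univIdeal (k := k) β).map (bc B ψ) = I := by
  refine ⟨(hilbChartEquiv β A).symm ⟨I, hI⟩, ?_, fun ψ hψ => ?_⟩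
  · change (univIdeal (k := k) β).map (bc B ((hilbChartEquiv β A).symm ⟨I, hI⟩)) = I
    rw [← hilbChartEquiv_eq_map, Equiv.apply_symm_apply]
  · rw [Equiv.eq_symm_apply]
    apply Subtype.ext
    rw [hilbChartEquiv_eq_map]
    exact hψ

end Shapes

end Fermat.Agent.S25.H491
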