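import Fermat.Agent.S25.H11.ACLeaves
import Fermat.Agent.S25.H71.ACPtUnique

/-!
# Row S25, block ALGCHARTS, leaf ST4 (helper491): `Stage4` from `PointBC` and `PointUnique`

Given `P3` for `G` over `A` (with chart ideal `I'`), the Hilbert coordinates `φ₀ : Rβ → A` of
`I'` exist and are unique (`H491.existsUnique_algHom_of_isChart`).  The locus where `G` lies in
the chart `i` is the locus where `φ₀ f` is invertible: `J = span {φ₀ f}`.

The proof is formal from the two point leaves `Leaf.PointBC` and `Leaf.PointUnique`, applied to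
the chart index `i.withOne` (`i` with `f` replaced by `1`), for which the unit condition is void.
-/

set_option autoImplicit false

universe u

open scoped TensorProduct

namespace Fermat.Agent.S25.H491

open Fermat.Agent.S25 Fermat.Agent.S25.H11

variable {k : Type u} [Field k]
  {B₀ B₁ B₀₁ : Type u} [CommRing B₀] [CommRing B₁] [CommRing B₀₁]
  [Algebra k B₀] [Algebra k B₁] [Algebra k B₀₁] [Algebra B₀ B₀₁] [Algebra B₁ B₀₁]
  [IsScalarTower k B₀ B₀₁] [IsScalarTower k B₁ B₀₁]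

/-- The chart index `i` with `f` replaced by `1`: the whole Hilbert chart of `β`. -/
noncomputable def chartIndexWithOne (i : ChartIndex k B₀) : ChartIndex k B₀ :=
  ⟨i.n, i.m, i.g, i.q, i.β, 1⟩

theorem chartIndexWithOne_numeric {y : B₁} {i : ChartIndex k B₀} (h : i.Numeric B₀₁ y) :
    (chartIndexWithOne i).Numeric B₀₁ y := h

section

variable {A : Type u} [CommRing A] [Algebra k A] {x : B₀} {y : B₁}

/-- A point of the chart `i` is a point of the chart `i.withOne`. -/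
theorem PointCond_withOne {i : ChartIndex k B₀} {G : CurveGD k B₀ B₁ B₀₁ A}
    {φ₀ : Rβ k i.β →ₐ[k] A} (h : PointCond x y i G φ₀) :
    PointCond x y (chartIndexWithOne i) G φ₀ :=
  ⟨h.p1, h.sect, by
    change IsUnit (φ₀ 1)
    rw [map_one]
    exact isUnit_one⟩

/-- A point of the chart `i.withOne` at which `f` is invertible is a point of the chart `i`. -/
theorem PointCond_of_withOne {i : ChartIndex k B₀} {G : CurveGD k B₀ B₁ B₀₁ A}
    {φ₀ : Rβ k i.β →ₐ[k] A} (h : PointCond x y (chartIndexWithOne i) G φ₀)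
    (hu : IsUnit (φ₀ i.f)) : PointCond x y i G φ₀ :=
  ⟨h.p1, h.sect, hu⟩

/-- `P3` gives a point of the chart `i.withOne`. -/
theorem exists_pointCond_withOne_of_P3 {i : ChartIndex k B₀} {G : CurveGD k B₀ B₁ B₀₁ A}
    (h3 : P3 x y i.n i.q i.β G) :
    ∃ φ₀ : Rβ k i.β →ₐ[k] A, PointCond x y (chartIndexWithOne i) G φ₀ := by
  obtain ⟨h1, s, hs, I', hI', hspan⟩ := h3
  obtain ⟨φ₀, hφ₀, -⟩ := existsUnique_algHom_of_isChart hI'
  refine ⟨φ₀, h1, ⟨s, hs, ?_⟩, ?_⟩
  · change Submodule.span (A ⊗[k] B₀) {s.1} =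
      ((univIdeal (k := k) i.β).map (bc B₀ φ₀) * ptIdeal i.q A) • ⊤
    rw [hφ₀]
    exact hspan
  · change IsUnit (φ₀ 1)
    rw [map_one]
    exact isUnit_one

/-- A point of the chart gives `P3`. -/
theorem P3_of_pointCond {i : ChartIndex k B₀} {G : CurveGD k B₀ B₁ B₀₁ A}
    {φ₀ : Rβ k i.β →ₐ[k] A} (h : PointCond x y i G φ₀) : P3 x y i.n i.q i.β G := by
  obtain ⟨s, hs, hspan⟩ := h.sect
  refine ⟨h.p1, s, hs, _, ?_, hspan⟩
  rw [← hilbChartEquiv_eq_map]
  exact (hilbChartEquiv i.β A φ₀).2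

end

/-- **ST4**, reduced to the point leaves: `Stage4` follows from `PointBC` and `PointUnique`. -/
theorem stage4_of_pointBC_pointUnique (hBC : Leaf.PointBC k B₀ B₁ B₀₁)
    (hU : Leaf.PointUnique k B₀ B₁ B₀₁) : Leaf.Stage4 k B₀ B₁ B₀₁ := by
  intro x y e hC i hnum A _ _ G hrig hdeg h3
  obtain ⟨φ₀, hpc⟩ := exists_pointCond_withOne_of_P3 h3
  refine ⟨Ideal.span {φ₀ i.f}, fun A' _ _ ψ G' hbc => ?_⟩
  have hpc' : PointCond x y (chartIndexWithOne i) G' (ψ.comp φ₀) :=
    hBC x y e hC (chartIndexWithOne i) (chartIndexWithOne_numeric hnum) A A' G G' ψ hbc hrig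
      hdeg φ₀ hpc
  rw [Ideal.map_span, Set.image_singleton, Ideal.span_singleton_eq_top]
  constructor
  · rintro ⟨φ₀', h'⟩
    have heq : ψ.comp φ₀ = φ₀' :=
      hU x y e hC (chartIndexWithOne i) A' G' _ _ hpc' (PointCond_withOne h')
    have hu := h'.unit
    rw [← heq] at hu
    exact hu
  · intro hu
    exact ⟨ψ.comp φ₀, PointCond_of_withOne hpc' hu⟩

/-- **ST4**, reduced to `PointBC` alone (`PointUnique` is helper71's `H71.pointUnique`). -/
theorem stage4_of_pointBC [IsAlgClosed k] (hBC : Leaf.PointBC k B₀ B₁ B₀₁) :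
    Leaf.Stage4 k B₀ B₁ B₀₁ :=
  stage4_of_pointBC_pointUnique hBC (H71.pointUnique k B₀ B₁ B₀₁)

/-- **ST4** in the form of the skeleton statement `stage4_locus`, given `PointBC`. -/
theorem stage4_locus_of_pointBC [IsAlgClosed k] (hBC : Leaf.PointBC k B₀ B₁ B₀₁)
    {x : B₀} {y : B₁} {e : B₁ →ₐ[k] k} {A : Type u} [CommRing A] [Algebra k A]
    (hC : IsCurveChart k B₀ B₁ B₀₁ x y e) (i : ChartIndex k B₀)
    (hnum : i.Numeric B₀₁ y) (G : CurveGD k B₀ B₁ B₀₁ A) (hrig : G.Rigidifiable e)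
    (hdeg : G.Deg0) (h3 : P3 x y i.n i.q i.β G) :
    ∃ J : Ideal A, ∀ (A' : Type u) [CommRing A'] [Algebra k A'] (ψ : A →ₐ[k] A')
      (G' : CurveGD k B₀ B₁ B₀₁ A'), CurveGD.IsBC ψ G G' →
        (P4 x y i G' ↔ J.map ψ.toRingHom = ⊤) :=
  stage4_of_pointBC hBC x y e hC i hnum A G hrig hdeg h3

end Fermat.Agent.S25.H491
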