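import Mathlib

/-!
# S25, block HILB, leaf H1 (helper491): affine charts of the Hilbert functor of points

`k` a commutative ring, `B` a `k`-algebra, `β : Fin g → B`.  For a `k`-algebra `A` we describe the
ideals `I` of `A ⊗[k] B` such that the classes of `1 ⊗ β i` form an `A`-basis of `(A ⊗[k] B) ⧸ I`
by "structure maps" `p : B →ₗ[k] (Fin g → A)`, and show that these are represented by an explicit
`k`-algebra `Rβ`, of finite type if `B` is.
-/

set_option autoImplicit false

open scoped TensorProduct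

namespace Fermat.Agent.S25.H491

universe u v w

section StructMap

variable {k : Type u} [CommRing k] {B : Type v} [CommRing B] [Algebra k B]
variable {g : ℕ} (β : Fin g → B)
variable (A : Type w) [CommRing A] [Algebra k A]

/-- The predicate on `p : B →ₗ[k] (Fin g → A)`: "`p` is the coordinate map of a quotient algebra of
`A ⊗[k] B` which is free with basis the classes of `β`". -/
structure IsStructMap (p : B →ₗ[k] (Fin g → A)) : Prop where
  unit : ∀ i, p (β i) = Pi.single i 1
  mul : ∀ b b' : B, p (b * b') = ∑ i, p b i • p (β i * b')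

/-- Structure maps, as a type. -/
def StructMap : Type (max v w) := {p : B →ₗ[k] (Fin g → A) // IsStructMap β A p}

variable {β A}

/-- The `A`-linear extension `A ⊗[k] B → (Fin g → A)` of `p`. -/
noncomputable def ext (p : B →ₗ[k] (Fin g → A)) : A ⊗[k] B →ₗ[A] (Fin g → A) :=
  LinearMap.liftBaseChange A p

@[simp]
theorem ext_tmul (p : B →ₗ[k] (Fin g → A)) (a : A) (b : B) :
    ext p (a ⊗ₜ[k] b) = a • p b := by
  simp [ext]

theorem ext_one_tmul_mul {p : B →ₗ[k] (Fin g → A)} (hp : IsStructMap β A p) (b' : B)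
    (x : A ⊗[k] B) :
    ext p ((1 ⊗ₜ[k] b') * x) = ∑ i, ext p x i • p (β i * b') := by
  induction x using TensorProduct.induction_on with
  | zero => simp
  | tmul a b =>
    rw [Algebra.TensorProduct.tmul_mul_tmul, one_mul, ext_tmul, ext_tmul, mul_comm b' b, hp.mul,
      Finset.smul_sum]
    refine Finset.sum_congr rfl fun i _ => ?_
    rw [Pi.smul_apply, smul_eq_mul, mul_smul]
  | add x y hx hy =>
    rw [mul_add, map_add, hx, hy, ← Finset.sum_add_distrib]
    refine Finset.sum_congr rfl fun i _ => ?_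
    rw [map_add, Pi.add_apply, add_smul]

theorem ext_mul_eq_zero {p : B →ₗ[k] (Fin g → A)} (hp : IsStructMap β A p) (c x : A ⊗[k] B)
    (hx : ext p x = 0) : ext p (c * x) = 0 := by
  induction c using TensorProduct.induction_on with
  | zero => simp
  | tmul a b =>
    have h1 : (a ⊗ₜ[k] b) * x = a • ((1 ⊗ₜ[k] b) * x) := by
      rw [← smul_mul_assoc, TensorProduct.smul_tmul', smul_eq_mul, mul_one]
    rw [h1, map_smul, ext_one_tmul_mul hp, hx]
    simp
  | add c d hc hd => rw [add_mul, map_add, hc, hd, add_zero]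

/-- The ideal attached to a structure map: the kernel of `ext p`. -/
noncomputable def idealOf {p : B →ₗ[k] (Fin g → A)} (hp : IsStructMap β A p) :
    Ideal (A ⊗[k] B) where
  carrier := {x | ext p x = 0}
  zero_mem' := map_zero _
  add_mem' := fun {x y} hx hy => by
    change ext p x = 0 at hx
    change ext p y = 0 at hy
    change ext p (x + y) = 0
    rw [map_add, hx, hy, add_zero]
  smul_mem' := fun c x hx => by
    change ext p x = 0 at hx
    change ext p (c * x) = 0
    exact ext_mul_eq_zero hp c x hx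

theorem mem_idealOf {p : B →ₗ[k] (Fin g → A)} (hp : IsStructMap β A p) (x : A ⊗[k] B) :
    x ∈ idealOf hp ↔ ext p x = 0 := Iff.rfl

theorem ext_surjective {p : B →ₗ[k] (Fin g → A)} (hp : IsStructMap β A p) :
    Function.Surjective (ext p) := by
  intro v
  refine ⟨∑ i, v i ⊗ₜ[k] β i, ?_⟩
  rw [map_sum]
  simp only [ext_tmul, hp.unit]
  ext j
  simp [Finset.sum_apply, Pi.single_apply]

/-- `I` lies in the chart of `β`: the classes of `1 ⊗ β i` form an `A`-basis of
`(A ⊗[k] B) ⧸ I` (stated through a linear equivalence with `Fin g → A`). -/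
def IsChart (β : Fin g → B) (I : Ideal (A ⊗[k] B)) : Prop :=
  ∃ e : ((A ⊗[k] B) ⧸ I) ≃ₗ[A] (Fin g → A),
    ∀ i, e (Ideal.Quotient.mk I (1 ⊗ₜ[k] β i)) = Pi.single i 1

theorem restrictScalars_idealOf {p : B →ₗ[k] (Fin g → A)} (hp : IsStructMap β A p) :
    (idealOf hp).restrictScalars A = LinearMap.ker (ext p) := by
  ext x
  rfl

/-- The quotient by `idealOf hp` is identified with `Fin g → A` by `ext p`. -/
noncomputable def quotEquiv {p : B →ₗ[k] (Fin g → A)} (hp : IsStructMap β A p) :
    ((A ⊗[k] B) ⧸ idealOf hp) ≃ₗ[A] (Fin g → A) :=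
  (Submodule.Quotient.restrictScalarsEquiv A (idealOf hp)).symm ≪≫ₗ
    (Submodule.quotEquivOfEq _ _ (restrictScalars_idealOf hp)) ≪≫ₗ
    (ext p).quotKerEquivOfSurjective (ext_surjective hp)

@[simp]
theorem quotEquiv_mk {p : B →ₗ[k] (Fin g → A)} (hp : IsStructMap β A p) (x : A ⊗[k] B) :
    quotEquiv hp (Ideal.Quotient.mk (idealOf hp) x) = ext p x := by
  rfl

theorem isChart_idealOf {p : B →ₗ[k] (Fin g → A)} (hp : IsStructMap β A p) :
    IsChart β (idealOf hp) :=
  ⟨quotEquiv hp, fun i => by rw [quotEquiv_mk, ext_tmul, one_smul, hp.unit]⟩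

/-! ### From a chart ideal to its structure map -/

section Coord

variable {I : Ideal (A ⊗[k] B)}

/-- The coordinate map `b ↦ e [1 ⊗ b]` attached to a trivialisation `e` of the quotient. -/
noncomputable def coordOf (e : ((A ⊗[k] B) ⧸ I) ≃ₗ[A] (Fin g → A)) : B →ₗ[k] (Fin g → A) where
  toFun b := e (Ideal.Quotient.mk I (1 ⊗ₜ[k] b))
  map_add' b b' := by rw [TensorProduct.tmul_add, map_add, map_add]
  map_smul' c b := by
    have h1 : (1 : A) ⊗ₜ[k] (c • b) = (algebraMap k A c) • ((1 : A) ⊗ₜ[k] b) := by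
      rw [TensorProduct.smul_tmul', TensorProduct.tmul_smul, algebraMap_smul,
        TensorProduct.smul_tmul']
    have h2 : Ideal.Quotient.mk I ((algebraMap k A c) • ((1 : A) ⊗ₜ[k] b)) =
        (algebraMap k A c) • Ideal.Quotient.mk I ((1 : A) ⊗ₜ[k] b) := rfl
    rw [h1, h2, map_smul, RingHom.id_apply, algebraMap_smul]

@[simp]
theorem coordOf_apply (e : ((A ⊗[k] B) ⧸ I) ≃ₗ[A] (Fin g → A)) (b : B) :
    coordOf e b = e (Ideal.Quotient.mk I (1 ⊗ₜ[k] b)) := rfl

theorem ext_coordOf (e : ((A ⊗[k] B) ⧸ I) ≃ₗ[A] (Fin g → A)) (x : A ⊗[k] B) :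
    ext (coordOf e) x = e (Ideal.Quotient.mk I x) := by
  induction x using TensorProduct.induction_on with
  | zero => simp
  | tmul a b =>
    have h : Ideal.Quotient.mk I (a ⊗ₜ[k] b) = a • Ideal.Quotient.mk I ((1 : A) ⊗ₜ[k] b) := by
      have : a ⊗ₜ[k] b = a • ((1 : A) ⊗ₜ[k] b) := by
        rw [TensorProduct.smul_tmul', smul_eq_mul, mul_one]
      rw [this]; rfl
    rw [ext_tmul, coordOf_apply, h, map_smul]
  | add x y hx hy => rw [map_add, hx, hy, map_add, map_add]

theorem isStructMap_coordOf (e : ((A ⊗[k] B) ⧸ I) ≃ₗ[A] (Fin g → A))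
    (he : ∀ i, e (Ideal.Quotient.mk I (1 ⊗ₜ[k] β i)) = Pi.single i 1) :
    IsStructMap β A (coordOf e) where
  unit := he
  mul b b' := by
    -- `[1 ⊗ b] = [∑ i, p b i ⊗ β i]`
    have h1 : Ideal.Quotient.mk I ((1 : A) ⊗ₜ[k] b) =
        Ideal.Quotient.mk I (∑ i, coordOf e b i ⊗ₜ[k] β i) := by
      apply e.injective
      rw [← ext_coordOf, ← ext_coordOf, map_sum]
      simp only [ext_tmul, coordOf_apply, he, one_smul]
      ext j
      simp [Finset.sum_apply, Pi.single_apply]
    have h2 : Ideal.Quotient.mk I ((1 : A) ⊗ₜ[k] (b * b')) =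
        Ideal.Quotient.mk I (∑ i, coordOf e b i ⊗ₜ[k] (β i * b')) := by
      have e1 : (1 : A) ⊗ₜ[k] (b * b') = ((1 : A) ⊗ₜ[k] b) * ((1 : A) ⊗ₜ[k] b') := by
        rw [Algebra.TensorProduct.tmul_mul_tmul, one_mul]
      have e2 : (∑ i, coordOf e b i ⊗ₜ[k] (β i * b')) =
          (∑ i, coordOf e b i ⊗ₜ[k] β i) * ((1 : A) ⊗ₜ[k] b') := by
        rw [Finset.sum_mul]
        refine Finset.sum_congr rfl fun i _ => ?_
        rw [Algebra.TensorProduct.tmul_mul_tmul, mul_one]
      rw [e1, e2, map_mul, map_mul, h1]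
    rw [coordOf_apply, h2, ← ext_coordOf, map_sum]
    refine Finset.sum_congr rfl fun i _ => ?_
    rw [ext_tmul]

theorem idealOf_coordOf (e : ((A ⊗[k] B) ⧸ I) ≃ₗ[A] (Fin g → A))
    (he : ∀ i, e (Ideal.Quotient.mk I (1 ⊗ₜ[k] β i)) = Pi.single i 1) :
    idealOf (isStructMap_coordOf e he) = I := by
  ext x
  rw [mem_idealOf, ext_coordOf, map_eq_zero_iff e e.injective, Ideal.Quotient.eq_zero_iff_mem]

/-- The trivialisation of a chart ideal is unique. -/
theorem trivialisation_unique (e e' : ((A ⊗[k] B) ⧸ I) ≃ₗ[A] (Fin g → A))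
    (he : ∀ i, e (Ideal.Quotient.mk I (1 ⊗ₜ[k] β i)) = Pi.single i 1)
    (he' : ∀ i, e' (Ideal.Quotient.mk I (1 ⊗ₜ[k] β i)) = Pi.single i 1) : e = e' := by
  have h : e.symm = e'.symm := by
    apply LinearEquiv.toLinearMap_injective
    apply (Pi.basisFun A (Fin g)).ext
    intro i
    simp only [Pi.basisFun_apply, LinearEquiv.coe_coe]
    rw [← he i, e.symm_apply_apply, he i, ← he' i, e'.symm_apply_apply]
  have := congrArg LinearEquiv.symm h
  simpa using this

theorem coordOf_quotEquiv {p : B →ₗ[k] (Fin g → A)} (hp : IsStructMap β A p) :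
    coordOf (quotEquiv hp) = p := by
  ext b : 1
  rw [coordOf_apply, quotEquiv_mk, ext_tmul, one_smul]

end Coord

/-! ### The equivalence -/

/-- The structure map of a chart ideal. -/
noncomputable def structMapOf {I : Ideal (A ⊗[k] B)} (hI : IsChart β I) :
    StructMap (k := k) β A :=
  ⟨coordOf hI.choose, isStructMap_coordOf _ hI.choose_spec⟩

/-- **H1, part 1**: chart ideals of `A ⊗[k] B` are the same as structure maps. -/
noncomputable def chartEquiv (β : Fin g → B) (A : Type w) [CommRing A] [Algebra k A] :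
    {I : Ideal (A ⊗[k] B) // IsChart β I} ≃ StructMap (k := k) β A where
  toFun I := structMapOf I.2
  invFun p := ⟨idealOf p.2, isChart_idealOf p.2⟩
  left_inv I := Subtype.ext (idealOf_coordOf _ I.2.choose_spec)
  right_inv p := by
    apply Subtype.ext
    change coordOf (isChart_idealOf p.2).choose = p.1
    rw [trivialisation_unique _ (quotEquiv p.2) (isChart_idealOf p.2).choose_spec
      (fun i => by rw [quotEquiv_mk, ext_tmul, one_smul, p.2.unit])]
    exact coordOf_quotEquiv p.2

end StructMap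

/-! ### The representing algebra -/

section Rep

open MvPolynomial

variable (k : Type u) [CommRing k] {B : Type v} [CommRing B] [Algebra k B]
variable {g : ℕ} (β : Fin g → B)

/-- The relations defining `Rβ`: linearity in `b`, normalisation at `β`, multiplicativity. -/
def relSet : Set (MvPolynomial (B × Fin g) k) :=
  {f | (∃ b b' j, f = X (b + b', j) - X (b, j) - X (b', j)) ∨
       (∃ (c : k) (b : B) (j : Fin g), f = X (c • b, j) - C c * X (b, j)) ∨
       (∃ i j, f = X (β i, j) - C (if i = j then (1 : k) else 0)) ∨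
       (∃ b b' j, f = X (b * b', j) - ∑ i, X (b, i) * X (β i * b', j))}

/-- The coordinate ring of the chart of `β`. -/
abbrev Rβ : Type (max u v) := MvPolynomial (B × Fin g) k ⧸ Ideal.span (relSet k β)

/-- The universal coordinates `x b j ∈ Rβ`. -/
noncomputable def xgen (b : B) (j : Fin g) : Rβ k β :=
  Ideal.Quotient.mk (Ideal.span (relSet k β)) (X (b, j))

variable {k β}

theorem xgen_add (b b' : B) (j : Fin g) :
    xgen k β (b + b') j = xgen k β b j + xgen k β b' j := by
  have h : (X (b + b', j) - X (b, j) - X (b', j) : MvPolynomial (B × Fin g) k) ∈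
      Ideal.span (relSet k β) := Ideal.subset_span (Or.inl ⟨b, b', j, rfl⟩)
  have := Ideal.Quotient.eq_zero_iff_mem.mpr h
  rw [map_sub, map_sub, sub_sub, sub_eq_zero] at this
  exact this

theorem xgen_smul (c : k) (b : B) (j : Fin g) :
    xgen k β (c • b) j = c • xgen k β b j := by
  have h : (X (c • b, j) - C c * X (b, j) : MvPolynomial (B × Fin g) k) ∈
      Ideal.span (relSet k β) := Ideal.subset_span (Or.inr (Or.inl ⟨c, b, j, rfl⟩))
  have := Ideal.Quotient.eq_zero_iff_mem.mpr h
  rw [map_sub, sub_eq_zero, map_mul] at this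
  rw [xgen, this, ← map_mul, MvPolynomial.C_mul']
  rfl

theorem xgen_unit (i j : Fin g) :
    xgen k β (β i) j = if i = j then 1 else 0 := by
  have h : (X (β i, j) - C (if i = j then (1 : k) else 0) : MvPolynomial (B × Fin g) k) ∈
      Ideal.span (relSet k β) := Ideal.subset_span (Or.inr (Or.inr (Or.inl ⟨i, j, rfl⟩)))
  have := Ideal.Quotient.eq_zero_iff_mem.mpr h
  rw [map_sub, sub_eq_zero] at this
  rw [xgen, this]
  split_ifs
  · rw [map_one, map_one]
  · rw [map_zero, map_zero]

theorem xgen_mul (b b' : B) (j : Fin g) :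
    xgen k β (b * b') j = ∑ i, xgen k β b i * xgen k β (β i * b') j := by
  have h : (X (b * b', j) - ∑ i, X (b, i) * X (β i * b', j) : MvPolynomial (B × Fin g) k) ∈
      Ideal.span (relSet k β) := Ideal.subset_span (Or.inr (Or.inr (Or.inr ⟨b, b', j, rfl⟩)))
  have := Ideal.Quotient.eq_zero_iff_mem.mpr h
  rw [map_sub, sub_eq_zero, map_sum] at this
  rw [xgen, this]
  simp only [map_mul]
  rfl

variable (A : Type w) [CommRing A] [Algebra k A]

/-- The structure map attached to an algebra homomorphism `Rβ → A`. -/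
noncomputable def structMapOfAlgHom (φ : Rβ k β →ₐ[k] A) : StructMap (k := k) β A :=
  ⟨{ toFun := fun b j => φ (xgen k β b j)
     map_add' := fun b b' => by
       ext j
       simp only [xgen_add, map_add, Pi.add_apply]
     map_smul' := fun c b => by
       ext j
       simp only [xgen_smul, map_smul, RingHom.id_apply, Pi.smul_apply] },
   { unit := fun i => by
       ext j
       simp only [LinearMap.coe_mk, AddHom.coe_mk, xgen_unit, Pi.single_apply]
       split_ifs with h1 h2 h2
       · simp
       · exact absurd h1.symm h2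
       · exact absurd h2.symm h1
       · simp
     mul := fun b b' => by
       ext j
       simp only [LinearMap.coe_mk, AddHom.coe_mk, Finset.sum_apply, Pi.smul_apply, smul_eq_mul]
       rw [xgen_mul, map_sum]
       simp only [map_mul] }⟩

@[simp]
theorem structMapOfAlgHom_apply (φ : Rβ k β →ₐ[k] A) (b : B) (j : Fin g) :
    (structMapOfAlgHom A φ).1 b j = φ (xgen k β b j) := rfl

theorem aeval_relSet (p : StructMap (k := k) β A) (f : MvPolynomial (B × Fin g) k)
    (hf : f ∈ Ideal.span (relSet k β)) :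
    MvPolynomial.aeval (fun bj : B × Fin g => p.1 bj.1 bj.2) f = 0 := by
  have hle : Ideal.span (relSet k β) ≤
      RingHom.ker (MvPolynomial.aeval (fun bj : B × Fin g => p.1 bj.1 bj.2) :
        MvPolynomial (B × Fin g) k →ₐ[k] A).toRingHom := by
    rw [Ideal.span_le]
    rintro f (⟨b, b', j, rfl⟩ | ⟨c, b, j, rfl⟩ | ⟨i, j, rfl⟩ | ⟨b, b', j, rfl⟩)
    · simp [RingHom.mem_ker]
    · simp only [SetLike.mem_coe, RingHom.mem_ker, AlgHom.toRingHom_eq_coe, RingHom.coe_coe,
        map_sub, map_mul, aeval_X, aeval_C]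
      rw [p.1.map_smul c b, Pi.smul_apply, Algebra.smul_def, sub_self]
    · simp only [SetLike.mem_coe, RingHom.mem_ker, AlgHom.toRingHom_eq_coe, RingHom.coe_coe,
        map_sub, aeval_X, aeval_C, p.2.unit, Pi.single_apply]
      split_ifs with h1 h2 h2
      · simp
      · exact absurd h1.symm h2
      · exact absurd h2.symm h1
      · simp
    · simp only [SetLike.mem_coe, RingHom.mem_ker, AlgHom.toRingHom_eq_coe, RingHom.coe_coe,
        map_sub, aeval_X, map_sum, map_mul]
      rw [p.2.mul b b']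
      simp only [Finset.sum_apply, Pi.smul_apply, smul_eq_mul, sub_self]
  exact hle hf

/-- The algebra homomorphism `Rβ → A` attached to a structure map. -/
noncomputable def algHomOfStructMap (p : StructMap (k := k) β A) : Rβ k β →ₐ[k] A :=
  Ideal.Quotient.liftₐ (Ideal.span (relSet k β))
    (MvPolynomial.aeval fun bj : B × Fin g => p.1 bj.1 bj.2) (aeval_relSet A p)

@[simp]
theorem algHomOfStructMap_xgen (p : StructMap (k := k) β A) (b : B) (j : Fin g) :
    algHomOfStructMap A p (xgen k β b j) = p.1 b j := by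
  change (MvPolynomial.aeval fun bj : B × Fin g => p.1 bj.1 bj.2) (X (b, j)) = p.1 b j
  rw [aeval_X]

/-- Two algebra homomorphisms out of `Rβ` agreeing on the `xgen` are equal. -/
theorem algHom_ext_xgen {φ ψ : Rβ k β →ₐ[k] A}
    (h : ∀ b j, φ (xgen k β b j) = ψ (xgen k β b j)) : φ = ψ := by
  apply Ideal.Quotient.algHom_ext
  apply MvPolynomial.algHom_ext
  rintro ⟨b, j⟩
  exact h b j

/-- **H1, part 2**: `Rβ` represents structure maps. -/
noncomputable def repEquiv : (Rβ k β →ₐ[k] A) ≃ StructMap (k := k) β A where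
  toFun := structMapOfAlgHom A
  invFun := algHomOfStructMap A
  left_inv φ := algHom_ext_xgen A fun b j => by
    rw [algHomOfStructMap_xgen, structMapOfAlgHom_apply]
  right_inv p := by
    apply Subtype.ext
    ext b j
    rw [structMapOfAlgHom_apply, algHomOfStructMap_xgen]


/-- `Rβ` is generated by the universal coordinates: a subalgebra containing all `xgen b j` is `⊤`. -/
theorem subalgebra_eq_top_of_xgen_mem (T : Subalgebra k (Rβ k β))
    (h : ∀ b j, xgen k β b j ∈ T) : T = ⊤ := by
  rw [eq_top_iff]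
  rintro r -
  obtain ⟨f, rfl⟩ := Ideal.Quotient.mk_surjective r
  induction f using MvPolynomial.induction_on with
  | C a => exact T.algebraMap_mem a
  | add f f' hf hf' => rw [map_add]; exact T.add_mem hf hf'
  | mul_X f n hf =>
    rw [map_mul]
    exact T.mul_mem hf (h n.1 n.2)

/-- **H1, part 4** (finite type): if `S` generates `B` as a `k`-algebra, then `Rβ` is generated by
the `xgen 1 j` and the `xgen (β i * s) j`, `s ∈ S`. -/
theorem adjoin_xgen_eq_top (S : Set B) (hS : Algebra.adjoin k S = ⊤) :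
    Algebra.adjoin k
      ({r : Rβ k β | ∃ j, r = xgen k β 1 j} ∪
        {r : Rβ k β | ∃ i, ∃ s ∈ S, ∃ j, r = xgen k β (β i * s) j}) = ⊤ := by
  set T : Subalgebra k (Rβ k β) := Algebra.adjoin k
      ({r : Rβ k β | ∃ j, r = xgen k β 1 j} ∪
        {r : Rβ k β | ∃ i, ∃ s ∈ S, ∃ j, r = xgen k β (β i * s) j}) with hT
  -- `V`: the elements `b` such that all `xgen (β i * b) j` lie in `T`
  let V : Subalgebra k B :=
    { carrier := {b | ∀ i j, xgen k β (β i * b) j ∈ T}
      mul_mem' := fun {b b'} hb hb' i j => by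
        rw [← mul_assoc, xgen_mul]
        exact T.sum_mem fun l _ => T.mul_mem (hb i l) (hb' l j)
      one_mem' := fun i j => by
        rw [mul_one, xgen_unit]
        split_ifs
        · exact T.one_mem
        · exact T.zero_mem
      add_mem' := fun {b b'} hb hb' i j => by
        rw [mul_add, xgen_add]
        exact T.add_mem (hb i j) (hb' i j)
      zero_mem' := fun i j => by
        have h0 : xgen k β (β i * 0) j = 0 := by
          have := xgen_smul (β := β) (0 : k) (0 : B) j
          rw [zero_smul, zero_smul] at this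
          rw [mul_zero, this]
        rw [h0]
        exact T.zero_mem
      algebraMap_mem' := fun c i j => by
        have h1 : β i * algebraMap k B c = c • β i := by
          rw [Algebra.smul_def, mul_comm]
        rw [h1, xgen_smul, xgen_unit]
        split_ifs
        · exact T.smul_mem T.one_mem c
        · exact T.smul_mem T.zero_mem c }
  have hV : V = ⊤ := by
    rw [eq_top_iff, ← hS]
    apply Algebra.adjoin_le
    intro s hs i j
    exact Algebra.subset_adjoin (Or.inr ⟨i, s, hs, j, rfl⟩)
  apply subalgebra_eq_top_of_xgen_mem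
  intro b j
  have hb : b ∈ V := by rw [hV]; exact Algebra.mem_top
  have h1 : xgen k β b j = ∑ i, xgen k β 1 i * xgen k β (β i * b) j := by
    rw [← xgen_mul, one_mul]
  rw [h1]
  exact T.sum_mem fun i _ =>
    T.mul_mem (Algebra.subset_adjoin (Or.inl ⟨i, rfl⟩)) (hb i j)

/-- **H1, part 4**: if `B` is a `k`-algebra of finite type, so is `Rβ`. -/
theorem finiteType_Rβ [hB : Algebra.FiniteType k B] : Algebra.FiniteType k (Rβ k β) := by
  obtain ⟨S, hS⟩ := hB.out
  refine ⟨Subalgebra.fg_def.mpr ⟨_, ?_, adjoin_xgen_eq_top (β := β) (S : Set B) hS⟩⟩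
  apply Set.Finite.union
  · have : {r : Rβ k β | ∃ j, r = xgen k β 1 j} = Set.range (fun j => xgen k β 1 j) := by
      ext r; constructor
      · rintro ⟨j, rfl⟩; exact ⟨j, rfl⟩
      · rintro ⟨j, rfl⟩; exact ⟨j, rfl⟩
    rw [this]
    exact Set.finite_range _
  · have : {r : Rβ k β | ∃ i, ∃ s ∈ (S : Set B), ∃ j, r = xgen k β (β i * s) j} =
        Set.range (fun x : Fin g × S × Fin g => xgen k β (β x.1 * x.2.1.1) x.2.2) := by
      ext r; constructor
      · rintro ⟨i, s, hs, j, rfl⟩; exact ⟨(i, ⟨s, hs⟩, j), rfl⟩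
      · rintro ⟨⟨i, s, j⟩, rfl⟩; exact ⟨i, s.1, s.2, j, rfl⟩
    rw [this]
    exact Set.finite_range _

end Rep

/-! ### Naturality in `A` -/

section Naturality

universe w'

variable {k : Type u} [CommRing k] {B : Type v} [CommRing B] [Algebra k B]
variable {g : ℕ} {β : Fin g → B}
variable {A : Type w} [CommRing A] [Algebra k A] {A' : Type w'} [CommRing A'] [Algebra k A']

/-- Push a coordinate map forward along `φ : A →ₐ[k] A'`. -/
noncomputable def mapCoord (φ : A →ₐ[k] A') (p : B →ₗ[k] (Fin g → A)) :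
    B →ₗ[k] (Fin g → A') :=
  (φ.toLinearMap.compLeft (Fin g)) ∘ₗ p

@[simp]
theorem mapCoord_apply (φ : A →ₐ[k] A') (p : B →ₗ[k] (Fin g → A)) (b : B) (j : Fin g) :
    mapCoord φ p b j = φ (p b j) := rfl

theorem IsStructMap.map {p : B →ₗ[k] (Fin g → A)} (hp : IsStructMap β A p) (φ : A →ₐ[k] A') :
    IsStructMap β A' (mapCoord φ p) where
  unit i := by
    ext j
    rw [mapCoord_apply, hp.unit, Pi.single_apply, Pi.single_apply]
    split_ifs
    · exact map_one φ
    · exact map_zero φ
  mul b b' := by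
    ext j
    rw [mapCoord_apply, hp.mul, Finset.sum_apply, Finset.sum_apply, map_sum]
    refine Finset.sum_congr rfl fun i _ => ?_
    rw [Pi.smul_apply, Pi.smul_apply, smul_eq_mul, smul_eq_mul, map_mul, mapCoord_apply,
      mapCoord_apply]

/-- Base change of structure maps. -/
noncomputable def StructMap.map (φ : A →ₐ[k] A') (p : StructMap (k := k) β A) :
    StructMap (k := k) β A' :=
  ⟨mapCoord φ p.1, p.2.map φ⟩

@[simp]
theorem StructMap.map_apply (φ : A →ₐ[k] A') (p : StructMap (k := k) β A) (b : B) (j : Fin g) :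
    (StructMap.map φ p).1 b j = φ (p.1 b j) := rfl

/-- The base change map `A ⊗[k] B → A' ⊗[k] B`. -/
noncomputable abbrev bc (B : Type v) [CommRing B] [Algebra k B] (φ : A →ₐ[k] A') :
    A ⊗[k] B →ₐ[k] A' ⊗[k] B :=
  Algebra.TensorProduct.map φ (AlgHom.id k B)

theorem ext_mapCoord (φ : A →ₐ[k] A') (p : B →ₗ[k] (Fin g → A)) (x : A ⊗[k] B) (j : Fin g) :
    ext (mapCoord φ p) (bc B φ x) j = φ (ext p x j) := by
  induction x using TensorProduct.induction_on with
  | zero => simp
  | tmul a b =>
    rw [Algebra.TensorProduct.map_tmul, ext_tmul, ext_tmul, Pi.smul_apply, Pi.smul_apply,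
      smul_eq_mul, smul_eq_mul, map_mul, mapCoord_apply, AlgHom.id_apply]
  | add x y hx hy =>
    rw [map_add, map_add, Pi.add_apply, hx, hy, map_add, Pi.add_apply, map_add]

/-- Every element of `A ⊗[k] B` is congruent modulo `idealOf hp` to the combination of the
`1 ⊗ β i` with its coordinates as coefficients. -/
theorem sub_sum_mem_idealOf {p : B →ₗ[k] (Fin g → A)} (hp : IsStructMap β A p) (x : A ⊗[k] B) :
    x - ∑ i, ext p x i ⊗ₜ[k] β i ∈ idealOf hp := by
  rw [mem_idealOf, map_sub, map_sum, sub_eq_zero]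
  simp only [ext_tmul, hp.unit]
  ext j
  simp [Finset.sum_apply, Pi.single_apply]

/-- **H1, part 3** (naturality): the ideal of the base-changed structure map is the extension of
the ideal. -/
theorem idealOf_map {p : B →ₗ[k] (Fin g → A)} (hp : IsStructMap β A p) (φ : A →ₐ[k] A') :
    idealOf (hp.map φ) = Ideal.map (bc B φ) (idealOf hp) := by
  apply le_antisymm
  · intro x' hx'
    rw [mem_idealOf] at hx'
    -- every `x'` is congruent to `∑ i, ext p' x' i ⊗ β i` modulo the extended ideal
    have key : ∀ y : A' ⊗[k] B,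
        y - ∑ i, ext (mapCoord φ p) y i ⊗ₜ[k] β i ∈ Ideal.map (bc B φ) (idealOf hp) := by
      intro y
      induction y using TensorProduct.induction_on with
      | zero => simp
      | tmul a' b =>
        have h1 : bc B φ ((1 : A) ⊗ₜ[k] b - ∑ i, ext p ((1 : A) ⊗ₜ[k] b) i ⊗ₜ[k] β i) ∈
            Ideal.map (bc B φ) (idealOf hp) :=
          Ideal.mem_map_of_mem _ (sub_sum_mem_idealOf hp _)
        have h2 := Ideal.mul_mem_left _ (a' ⊗ₜ[k] (1 : B)) h1
        convert h2 using 1
        rw [map_sub, map_sum, mul_sub, Finset.mul_sum, Algebra.TensorProduct.map_tmul,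
          Algebra.TensorProduct.tmul_mul_tmul, map_one, mul_one, one_mul, AlgHom.id_apply]
        congr 1
        refine Finset.sum_congr rfl fun i _ => ?_
        rw [Algebra.TensorProduct.map_tmul, Algebra.TensorProduct.tmul_mul_tmul, one_mul,
          AlgHom.id_apply, ext_tmul, ext_tmul, one_smul, Pi.smul_apply, smul_eq_mul,
          mapCoord_apply]
      | add y z hy hz =>
        have := Ideal.add_mem _ hy hz
        convert this using 1
        simp only [map_add, Pi.add_apply, TensorProduct.add_tmul, Finset.sum_add_distrib]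
        abel
    have := key x'
    rw [hx'] at this
    simpa using this
  · rw [Ideal.map_le_iff_le_comap]
    intro x hx
    rw [mem_idealOf] at hx
    rw [Ideal.mem_comap, mem_idealOf]
    ext j
    rw [ext_mapCoord, hx, Pi.zero_apply, map_zero, Pi.zero_apply]

/-- Chart ideals are stable under base change. -/
theorem IsChart.map {I : Ideal (A ⊗[k] B)} (hI : IsChart β I) (φ : A →ₐ[k] A') :
    IsChart β (Ideal.map (bc B φ) I) := by
  obtain ⟨e, he⟩ := hI
  have h := idealOf_map (isStructMap_coordOf e he) φ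
  rw [idealOf_coordOf e he] at h
  rw [← h]
  exact isChart_idealOf _

/-- **H1, part 3**: `chartEquiv` is natural in `A`. -/
theorem chartEquiv_map {I : Ideal (A ⊗[k] B)} (hI : IsChart β I) (φ : A →ₐ[k] A') :
    chartEquiv β A' ⟨Ideal.map (bc B φ) I, hI.map φ⟩ =
      StructMap.map φ (chartEquiv β A ⟨I, hI⟩) := by
  rw [← Equiv.eq_symm_apply]
  apply Subtype.ext
  change Ideal.map (bc B φ) I = idealOf ((structMapOf hI).2.map φ)
  rw [idealOf_map]
  congr 1
  exact (idealOf_coordOf _ hI.choose_spec).symm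

/-- **H1, part 3**: `repEquiv` is natural in `A`. -/
theorem repEquiv_comp (φ : A →ₐ[k] A') (ψ : Rβ k β →ₐ[k] A) :
    repEquiv A' (φ.comp ψ) = StructMap.map φ (repEquiv A ψ) := rfl

end Naturality

end Fermat.Agent.S25.H491
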