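import Mathlib
import Fermat.Agent.S25.H910.McCoy

/-!
# S25, block ALGCHARTS, leaf C2 (flatness part), helper491

`R` a finite free `A[X]`-algebra whose fibres `R ⊗[A] κ(p)` are domains, `N` a finite projective
`R`-module (e.g. an invertible one) and `s : N` a section which is nonzero on every fibre.
Then `r ↦ r • s` is universally injective over `A` (injective after `- ⊗[A] M` for every `M`)
and the cokernel `N ⧸ R s` is flat over `A`.

The proof reduces to the principal case `N = R` (helper910's McCoy/norm criterion E4): if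
`φ_j : N → R` is a dual basis, then `φ := ∑ X ^ (j (D + 1)) φ_j` (`D` a bound for the degrees of
the coordinates of the `φ_j s`) satisfies: `φ s` is nonzero on every fibre.
-/

set_option autoImplicit false
set_option linter.unusedSectionVars false

open Polynomial TensorProduct

namespace Fermat.Agent.S25.H491

universe u v w

section FlatCoker

variable {A : Type u} [CommRing A] {P N Q : Type v}
  [AddCommGroup P] [Module A P] [AddCommGroup N] [Module A N] [AddCommGroup Q] [Module A Q]

/-- The cokernel of a universally injective map into a flat module is flat. -/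
theorem flat_of_exact_of_rTensor_injective [Module.Flat A N] (σ : P →ₗ[A] N) (π : N →ₗ[A] Q)
    (hπ : Function.Surjective π) (hex : Function.Exact σ π)
    (hσ : ∀ (M : Type (max u v)) [AddCommGroup M] [Module A M],
      Function.Injective (LinearMap.rTensor M σ)) :
    Module.Flat A Q := by
  rw [Module.Flat.iff_lTensor_preserves_injective_linearMap]
  intro M M' _ _ _ _ j hj
  rw [injective_iff_map_eq_zero]
  intro z hz
  obtain ⟨z', rfl⟩ := LinearMap.rTensor_surjective M hπ z
  have hexM := rTensor_exact M hex hπ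
  have hexM' := rTensor_exact M' hex hπ
  have h1 : LinearMap.rTensor M' π (LinearMap.lTensor N j z') = 0 := by
    rw [← LinearMap.comp_apply, LinearMap.rTensor_comp_lTensor, ← LinearMap.lTensor_comp_rTensor,
      LinearMap.comp_apply, hz]
  obtain ⟨w, hw⟩ := (hexM' _).mp h1
  let q := (LinearMap.range j).mkQ
  have hq : Function.Surjective q := Submodule.mkQ_surjective _
  have hexj : Function.Exact j q := by
    intro x
    rw [Submodule.mkQ_apply, Submodule.Quotient.mk_eq_zero]
    rfl
  have hexP := lTensor_exact P hexj hq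
  have hexN := lTensor_exact N hexj hq
  have h2 : LinearMap.rTensor (M' ⧸ LinearMap.range j) σ (LinearMap.lTensor P q w) = 0 := by
    rw [← LinearMap.comp_apply, LinearMap.rTensor_comp_lTensor, ← LinearMap.lTensor_comp_rTensor,
      LinearMap.comp_apply, hw]
    exact (hexN _).mpr ⟨z', rfl⟩
  have h3 : LinearMap.lTensor P q w = 0 := hσ _ (h2.trans (map_zero _).symm)
  obtain ⟨u, hu⟩ := (hexP _).mp h3
  have h4 : LinearMap.lTensor N j (z' - LinearMap.rTensor M σ u) = 0 := by
    rw [map_sub, ← LinearMap.comp_apply (LinearMap.lTensor N j), LinearMap.lTensor_comp_rTensor,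
      ← LinearMap.rTensor_comp_lTensor, LinearMap.comp_apply, hu, hw, sub_self]
  have h5 : z' = LinearMap.rTensor M σ u :=
    sub_eq_zero.mp
      (Module.Flat.lTensor_preserves_injective_linearMap (M := N) j hj (h4.trans (map_zero _).symm))
  rw [h5]
  exact (hexM _).mpr ⟨u, rfl⟩

end FlatCoker

section Fibre

variable {A : Type u} [CommRing A] {R : Type v} [CommRing R] [Algebra A[X] R]
  [Module.Free A[X] R] [Module.Finite A[X] R] [Algebra A R] [IsScalarTower A A[X] R]

/-- The `A`-linear functional "coefficient of `X ^ i` in the `l`-th coordinate". -/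
noncomputable def coordCoeff (l : Module.Free.ChooseBasisIndex A[X] R) (i : ℕ) : R →ₗ[A] A where
  toFun r := ((Module.Free.chooseBasis A[X] R).repr r l).coeff i
  map_add' r r' := by rw [map_add, Finsupp.add_apply, Polynomial.coeff_add]
  map_smul' a r := by
    have h := LinearMap.map_smul_of_tower
      (Module.Free.chooseBasis A[X] R).repr.toLinearMap a r
    rw [LinearEquiv.coe_coe] at h
    rw [h, Finsupp.smul_apply, Polynomial.coeff_smul, RingHom.id_apply]

theorem coordCoeff_apply (l : Module.Free.ChooseBasisIndex A[X] R) (i : ℕ) (r : R) :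
    coordCoeff l i r = ((Module.Free.chooseBasis A[X] R).repr r l).coeff i := rfl

/-- If `r ⊗ 1 = 0` in `R ⊗[A] K`, all coordinates of `r` die in `K`. -/
theorem algebraMap_coordCoeff_eq_zero (K : Type*) [CommRing K] [Algebra A K] (r : R)
    (h : r ⊗ₜ[A] (1 : K) = 0) (l : Module.Free.ChooseBasisIndex A[X] R) (i : ℕ) :
    algebraMap A K (coordCoeff l i r) = 0 := by
  have h1 := congrArg (fun z => TensorProduct.lid A K (LinearMap.rTensor K (coordCoeff l i) z)) h
  simp only [LinearMap.rTensor_tmul, TensorProduct.lid_tmul, map_zero] at h1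
  rw [Algebra.smul_def, mul_one] at h1
  exact h1

/-- Conversely, if all coordinates of `r` die in `K`, then `r ⊗ 1 = 0` in `R ⊗[A] K`. -/
theorem tmul_one_eq_zero_of_coordCoeff (K : Type*) [CommRing K] [Algebra A K] (r : R)
    (h : ∀ (l : Module.Free.ChooseBasisIndex A[X] R) (i : ℕ),
      algebraMap A K (coordCoeff l i r) = 0) :
    r ⊗ₜ[A] (1 : K) = 0 := by
  classical
  set b := Module.Free.chooseBasis A[X] R with hb
  have h1 : r = ∑ l, ∑ i ∈ Finset.range ((b.repr r l).natDegree + 1),
      (b.repr r l).coeff i • ((X ^ i : A[X]) • b l) := by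
    conv_lhs => rw [← b.sum_repr r]
    refine Finset.sum_congr rfl fun l _ => ?_
    conv_lhs => rw [(b.repr r l).as_sum_range_C_mul_X_pow]
    rw [Finset.sum_smul]
    refine Finset.sum_congr rfl fun i _ => ?_
    rw [← Polynomial.smul_eq_C_mul, smul_assoc]
  rw [h1, TensorProduct.sum_tmul]
  refine Finset.sum_eq_zero fun l _ => ?_
  rw [TensorProduct.sum_tmul]
  refine Finset.sum_eq_zero fun i _ => ?_
  rw [TensorProduct.smul_tmul, ← Algebra.algebraMap_eq_smul_one]
  have := h l i
  rw [coordCoeff_apply] at this
  rw [this, TensorProduct.tmul_zero]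

/-- **Window lemma.**  If all coordinates of the `f j` have degree `≤ D`, the coefficients of
`∑ X ^ (j (D + 1)) f j` are exactly the coefficients of the `f j`. -/
theorem coordCoeff_sum_X_pow {n : ℕ} (f : Fin n → R) (D : ℕ)
    (hD : ∀ j l, ((Module.Free.chooseBasis A[X] R).repr (f j) l).natDegree ≤ D)
    (j₀ : Fin n) (i : ℕ) (hi : i ≤ D) (l : Module.Free.ChooseBasisIndex A[X] R) :
    coordCoeff l ((j₀ : ℕ) * (D + 1) + i) (∑ j : Fin n, (X ^ ((j : ℕ) * (D + 1)) : A[X]) • f j) =
      coordCoeff l i (f j₀) := by
  classical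
  simp only [coordCoeff_apply, map_sum, map_smul, Finsupp.smul_apply, smul_eq_mul,
    Polynomial.coeff_X_pow_mul']
  rw [Finset.sum_eq_single j₀]
  · simp
  · intro j _ hj
    split_ifs with h
    · apply Polynomial.coeff_eq_zero_of_natDegree_lt
      have hne : (j : ℕ) ≠ j₀ := fun h' => hj (Fin.ext h')
      have hlt : (j : ℕ) < j₀ := by
        by_contra hge
        have h1 : (j₀ : ℕ) + 1 ≤ j := by omega
        have h2 := Nat.mul_le_mul_right (D + 1) h1
        rw [Nat.add_mul, Nat.one_mul] at h2
        omega
      have h3 := Nat.mul_le_mul_right (D + 1) (Nat.succ_le_of_lt hlt)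
      rw [Nat.succ_mul] at h3
      have h4 := hD j l
      omega
    · rfl
  · intro h
    exact absurd (Finset.mem_univ _) h

/-- **Combination.**  Finitely many elements of `R` can be combined, with powers of `X` as
coefficients, into one element which vanishes on a fibre only if all of them do. -/
theorem exists_exponents {n : ℕ} (f : Fin n → R) :
    ∃ e : Fin n → ℕ, ∀ (K : Type w) [CommRing K] [Algebra A K],
      (∑ j, (X ^ e j : A[X]) • f j) ⊗ₜ[A] (1 : K) = 0 → ∀ j, f j ⊗ₜ[A] (1 : K) = 0 := by
  classical
  set b := Module.Free.chooseBasis A[X] R with hb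
  let D : ℕ := Finset.univ.sup fun j : Fin n => Finset.univ.sup fun l => (b.repr (f j) l).natDegree
  have hD : ∀ j l, (b.repr (f j) l).natDegree ≤ D := fun j l =>
    le_trans (Finset.le_sup (f := fun l => (b.repr (f j) l).natDegree) (Finset.mem_univ l))
      (Finset.le_sup (f := fun j : Fin n => Finset.univ.sup fun l => (b.repr (f j) l).natDegree)
        (Finset.mem_univ j))
  refine ⟨fun j => (j : ℕ) * (D + 1), fun K _ _ hF j => ?_⟩
  apply tmul_one_eq_zero_of_coordCoeff
  intro l i
  by_cases hi : i ≤ D
  · rw [← coordCoeff_sum_X_pow f D hD j i hi l]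
    exact algebraMap_coordCoeff_eq_zero K _ hF l _
  · rw [coordCoeff_apply, Polynomial.coeff_eq_zero_of_natDegree_lt, map_zero]
    exact lt_of_le_of_lt (hD j l) (not_le.mp hi)

/-! ### The main theorem -/

variable {N : Type v} [AddCommGroup N] [Module R N] [Module A N] [IsScalarTower A R N]
  [Module.Finite R N] [Module.Projective R N]

/-- There is a linear form `φ : N → R` such that `φ s` is nonzero on every fibre on which `s`
is nonzero. -/
theorem exists_dual_fibrewise_ne_zero (s : N) :
    ∃ φ : N →ₗ[R] R, ∀ (K : Type w) [CommRing K] [Algebra A K],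
      s ⊗ₜ[A] (1 : K) ≠ 0 → (φ s) ⊗ₜ[A] (1 : K) ≠ 0 := by
  classical
  obtain ⟨n, f, g, -, -, hfg⟩ := Module.Finite.exists_comp_eq_id_of_projective R N
  obtain ⟨e, he⟩ := exists_exponents (A := A) (fun j : Fin n => g s j)
  refine ⟨∑ j, (algebraMap A[X] R (X ^ e j)) • ((LinearMap.proj j) ∘ₗ g), fun K _ _ hs hφ => ?_⟩
  apply hs
  have h1 : (∑ j, (algebraMap A[X] R (X ^ e j)) • ((LinearMap.proj j) ∘ₗ g)) s =
      ∑ j, (X ^ e j : A[X]) • g s j := by
    rw [LinearMap.sum_apply]
    refine Finset.sum_congr rfl fun j _ => ?_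
    rw [LinearMap.smul_apply, LinearMap.comp_apply, LinearMap.proj_apply, smul_eq_mul,
      Algebra.smul_def]
  rw [h1] at hφ
  have h2 := he K hφ
  -- `s = ∑ j, g s j • f (e_j)`
  have h3 : s = ∑ j, g s j • f (Pi.single j 1) := by
    have h4 : f (g s) = s := LinearMap.congr_fun hfg s
    have h5 : g s = ∑ j, g s j • (Pi.single j 1 : Fin n → R) := by
      ext j'
      simp [Finset.sum_apply, Pi.single_apply]
    conv_lhs => rw [← h4, h5]
    rw [map_sum]
    refine Finset.sum_congr rfl fun j _ => ?_
    rw [map_smul]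
  rw [h3, TensorProduct.sum_tmul]
  refine Finset.sum_eq_zero fun j _ => ?_
  have h6 := congrArg (LinearMap.rTensor K
    ((LinearMap.toSpanSingleton R N (f (Pi.single j 1))).restrictScalars A)) (h2 j)
  rw [map_zero, LinearMap.rTensor_tmul] at h6
  exact h6

/-- **C2, flatness part (universal injectivity).**  `R` finite free over `A[X]` with domain
fibres, `N` a finite projective `R`-module, `s : N` nonzero on every fibre.  Then `r ↦ r • s`
stays injective after tensoring with any `A`-module. -/
theorem rTensor_toSpanSingleton_injective_of_fibres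
    (hdom : ∀ (p : Ideal A) [p.IsPrime], IsDomain (R ⊗[A] p.ResidueField)) (s : N)
    (hs : ∀ (p : Ideal A) [p.IsPrime], s ⊗ₜ[A] (1 : p.ResidueField) ≠ 0)
    (M : Type*) [AddCommGroup M] [Module A M] :
    Function.Injective
      (LinearMap.rTensor M ((LinearMap.toSpanSingleton R N s).restrictScalars A)) := by
  obtain ⟨φ, hφ⟩ := exists_dual_fibrewise_ne_zero (A := A) (R := R) s
  -- `φ s` is regular on the fibres
  have hreg : ∀ (p : Ideal A) [p.IsPrime], IsSMulRegular (R ⊗[A] p.ResidueField) (φ s) := by
    intro p _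
    have := hdom p
    have hne := hφ p.ResidueField (hs p)
    intro z z' hz
    have h1 : ∀ w : R ⊗[A] p.ResidueField, (φ s) • w = ((φ s) ⊗ₜ[A] (1 : p.ResidueField)) * w := by
      intro w
      induction w using TensorProduct.induction_on with
      | zero => simp
      | tmul r c =>
        rw [TensorProduct.smul_tmul', Algebra.TensorProduct.tmul_mul_tmul, smul_eq_mul, one_mul]
      | add x y hx hy => rw [smul_add, hx, hy, mul_add]
    simp only [h1] at hz
    exact mul_left_cancel₀ hne hz
  rw [injective_iff_map_eq_zero]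
  intro z hz
  apply H910.tensor_eq_zero_of_smul_eq_zero_of_fibres (A := A) (φ s) hreg z
  have h2 : (LinearMap.rTensor M (φ.restrictScalars A))
      ((LinearMap.rTensor M ((LinearMap.toSpanSingleton R N s).restrictScalars A)) z) =
      (φ s) • z := by
    rw [← LinearMap.comp_apply, ← LinearMap.rTensor_comp, ← H910.rTensor_mulLeft_apply]
    congr 2
    ext r
    simp [mul_comm]
  rw [← h2, hz, map_zero]

/-- **C2, flatness part (injectivity).**  Under the fibre hypotheses, `r ↦ r • s` is injective. -/
theorem toSpanSingleton_injective_of_fibres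
    (hdom : ∀ (p : Ideal A) [p.IsPrime], IsDomain (R ⊗[A] p.ResidueField)) (s : N)
    (hs : ∀ (p : Ideal A) [p.IsPrime], s ⊗ₜ[A] (1 : p.ResidueField) ≠ 0) :
    Function.Injective (LinearMap.toSpanSingleton R N s) := by
  have h := rTensor_toSpanSingleton_injective_of_fibres (A := A) hdom s hs A
  intro r r' hrr'
  have h1 : (LinearMap.rTensor A ((LinearMap.toSpanSingleton R N s).restrictScalars A))
      (r ⊗ₜ[A] (1 : A)) =
      (LinearMap.rTensor A ((LinearMap.toSpanSingleton R N s).restrictScalars A))
      (r' ⊗ₜ[A] (1 : A)) := by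
    rw [LinearMap.rTensor_tmul, LinearMap.rTensor_tmul]
    exact congrArg (· ⊗ₜ[A] (1 : A)) hrr'
  have h2 := h h1
  have h3 := congrArg (TensorProduct.rid A R) h2
  simpa using h3

/-- The quotient map `N → N ⧸ R s`, as an `A`-linear map. -/
noncomputable def quotSpanMap (s : N) : N →ₗ[A] (N ⧸ Submodule.span R {s}) where
  toFun := Submodule.Quotient.mk
  map_add' _ _ := rfl
  map_smul' _ _ := rfl

/-- **C2, flatness part.**  `R` finite free over `A[X]` with domain fibres, `N` a finite
projective `R`-module, `s : N` nonzero on every fibre.  Then `N ⧸ R s` is flat over `A`. -/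
theorem flat_quotient_span_singleton_of_fibres
    (hdom : ∀ (p : Ideal A) [p.IsPrime], IsDomain (R ⊗[A] p.ResidueField)) (s : N)
    (hs : ∀ (p : Ideal A) [p.IsPrime], s ⊗ₜ[A] (1 : p.ResidueField) ≠ 0) :
    Module.Flat A (N ⧸ Submodule.span R {s}) := by
  have hAR : Module.Flat A R := Module.Flat.trans A A[X] R
  have hRN : Module.Flat R N := inferInstance
  have hAN : Module.Flat A N := Module.Flat.trans A R N
  have hsurj : Function.Surjective (quotSpanMap (A := A) (R := R) s) := fun q => by
    obtain ⟨x, rfl⟩ := Submodule.Quotient.mk_surjective _ q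
    exact ⟨x, rfl⟩
  have hinj : ∀ (M : Type (max u v)) [AddCommGroup M] [Module A M], Function.Injective
      (LinearMap.rTensor M ((LinearMap.toSpanSingleton R N s).restrictScalars A)) :=
    fun M _ _ => rTensor_toSpanSingleton_injective_of_fibres (A := A) hdom s hs M
  refine flat_of_exact_of_rTensor_injective
    ((LinearMap.toSpanSingleton R N s).restrictScalars A) (quotSpanMap (A := A) (R := R) s)
    hsurj ?_ hinj
  intro x
  change Submodule.Quotient.mk x = 0 ↔ x ∈ Set.range (LinearMap.toSpanSingleton R N s)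
  rw [Submodule.Quotient.mk_eq_zero, Submodule.mem_span_singleton]
  constructor
  · rintro ⟨r, rfl⟩
    exact ⟨r, rfl⟩
  · rintro ⟨r, rfl⟩
    exact ⟨r, rfl⟩

end Fibre

end Fermat.Agent.S25.H491
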